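/-
S25 / block ALGCHARTS (skeleton of helper11), leaf ST4 `stage4_locus` (helper387).

`Leaf.Stage4` is a FORMAL consequence of `Leaf.PointBC` and `Leaf.PointUnique`
(helper71, on main) and of the representability of the Hilbert chart (helper491):
for `G` with `P3` the ideal `I'` is `univIdeal.map (bc φ₀)` for a unique `φ₀ : Rβ → A`, and the
locus ideal is `J = (φ₀ f)`.  The trick is to apply PT-BC and PT-UNIQ to the chart index
`i.setOne` obtained from `i` by replacing `f` by `1` (for which `PointCond` is `P3` plus the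
Hilbert coordinates).
-/
import Fermat.Agent.S25.H11.ACLeaves
import Fermat.Agent.S25.H71.ACPtUnique

set_option autoImplicit false
set_option linter.unusedSectionVars false
set_option linter.style.haveILetI false

universe u

open scoped TensorProduct

namespace Fermat.Agent.S25.H387

open Fermat.Agent.S25 Fermat.Agent.S25.H11

variable {k : Type u} [Field k]
  {B₀ B₁ B₀₁ : Type u} [CommRing B₀] [CommRing B₁] [CommRing B₀₁]
  [Algebra k B₀] [Algebra k B₁] [Algebra k B₀₁] [Algebra B₀ B₀₁] [Algebra B₁ B₀₁]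
  [IsScalarTower k B₀ B₀₁] [IsScalarTower k B₁ B₀₁]

/-- The chart index obtained by replacing `f` by `1`. -/
noncomputable def setOne (i : ChartIndex k B₀) : ChartIndex k B₀ where
  n := i.n
  m := i.m
  g := i.g
  q := i.q
  β := i.β
  f := 1

theorem setOne_numeric {y : B₁} {i : ChartIndex k B₀} (h : i.Numeric B₀₁ y) :
    (setOne i).Numeric B₀₁ y := h

section

variable {A : Type u} [CommRing A] [Algebra k A] {x : B₀} {y : B₁}

/-- Forgetting the unit condition: a point of the chart `i` is a point of the chart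
`setOne i`. -/
theorem pointCond_setOne {i : ChartIndex k B₀} {G : CurveGD k B₀ B₁ B₀₁ A}
    {φ₀ : H491.Rβ k i.β →ₐ[k] A} (h : PointCond x y i G φ₀) :
    PointCond x y (setOne i) G φ₀ :=
  ⟨h.p1, h.sect, by
    change IsUnit (φ₀ 1)
    rw [map_one]
    exact isUnit_one⟩

/-- A point of `setOne i` at which `f` is a unit is a point of `i`. -/
theorem pointCond_of_setOne {i : ChartIndex k B₀} {G : CurveGD k B₀ B₁ B₀₁ A}
    {φ₀ : H491.Rβ k i.β →ₐ[k] A} (h : PointCond x y (setOne i) G φ₀)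
    (hu : IsUnit (φ₀ i.f)) : PointCond x y i G φ₀ :=
  ⟨h.p1, h.sect, hu⟩

/-- `P3` gives Hilbert coordinates: a point of the chart `setOne i`. -/
theorem exists_pointCond_setOne_of_P3 {i : ChartIndex k B₀} {G : CurveGD k B₀ B₁ B₀₁ A}
    (h3 : P3 x y i.n i.q i.β G) :
    ∃ φ₀ : H491.Rβ k i.β →ₐ[k] A, PointCond x y (setOne i) G φ₀ := by
  obtain ⟨h1, s, hs, I', hI', hspan⟩ := h3
  obtain ⟨φ₀, hφ₀, -⟩ := H491.existsUnique_algHom_of_isChart hI'
  have hφ₀' : (H491.univIdeal (k := k) i.β).map (H491.bc B₀ φ₀) = I' := hφ₀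
  refine ⟨φ₀, ⟨h1, ⟨s, hs, ?_⟩, ?_⟩⟩
  · change Submodule.span (A ⊗[k] B₀) {s.1} =
      ((H491.univIdeal (k := k) i.β).map (H491.bc B₀ φ₀) * ptIdeal i.q A) •
        (⊤ : Submodule (A ⊗[k] B₀) G.N₀)
    rw [hφ₀']
    exact hspan
  · change IsUnit (φ₀ 1)
    rw [map_one]
    exact isUnit_one

/-- A point of the chart `setOne i` gives `P3`. -/
theorem P3_of_pointCond_setOne {i : ChartIndex k B₀} {G : CurveGD k B₀ B₁ B₀₁ A}
    {φ₀ : H491.Rβ k i.β →ₐ[k] A} (h : PointCond x y (setOne i) G φ₀) :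
    P3 x y i.n i.q i.β G := by
  obtain ⟨s, hs, hspan⟩ := h.sect
  refine ⟨h.p1, s, hs, _, ?_, hspan⟩
  have := (H491.hilbChartEquiv (k := k) i.β A φ₀).2
  rwa [H491.hilbChartEquiv_eq_map] at this

end

/-- **ST4** from PT-BC and PT-UNIQ, in the form of the skeleton statement `stage4_locus`
(with the two leaves as explicit hypotheses). -/
theorem stage4_locus_of (hBC : Leaf.PointBC k B₀ B₁ B₀₁) (hU : Leaf.PointUnique k B₀ B₁ B₀₁)
    {x : B₀} {y : B₁} {e : B₁ →ₐ[k] k}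
    (hC : IsCurveChart k B₀ B₁ B₀₁ x y e) (i : ChartIndex k B₀)
    (hnum : i.Numeric B₀₁ y) {A : Type u} [CommRing A] [Algebra k A]
    (G : CurveGD k B₀ B₁ B₀₁ A) (hrig : G.Rigidifiable e)
    (hdeg : G.Deg0) (h3 : P3 x y i.n i.q i.β G) :
    ∃ J : Ideal A, ∀ (A' : Type u) [CommRing A'] [Algebra k A'] (ψ : A →ₐ[k] A')
      (G' : CurveGD k B₀ B₁ B₀₁ A'), CurveGD.IsBC ψ G G' →
        (P4 x y i G' ↔ J.map ψ.toRingHom = ⊤) := by
  obtain ⟨φ₀, hφ₀⟩ := exists_pointCond_setOne_of_P3 h3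
  refine ⟨Ideal.span {φ₀ i.f}, fun A' _ _ ψ G' hbc => ?_⟩
  have hbase : PointCond x y (setOne i) G' (ψ.comp φ₀) :=
    hBC x y e hC (setOne i) (setOne_numeric hnum) A A' G G' ψ hbc hrig hdeg φ₀ hφ₀
  have hmap : (Ideal.span {φ₀ i.f}).map ψ.toRingHom = Ideal.span {ψ (φ₀ i.f)} := by
    rw [Ideal.map_span, Set.image_singleton]
    rfl
  rw [hmap, Ideal.span_singleton_eq_top]
  constructor
  · rintro ⟨φ₀', hP'⟩
    have heq : ψ.comp φ₀ = φ₀' :=
      hU x y e hC (setOne i) A' G' (ψ.comp φ₀) φ₀' hbase (pointCond_setOne hP')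
    have hu := hP'.unit
    rw [← heq] at hu
    exact hu
  · intro hu
    exact ⟨ψ.comp φ₀, pointCond_of_setOne hbase hu⟩

/-- **ST4** as a leaf `Prop`, from PT-BC and PT-UNIQ. -/
theorem stage4_of_pointBC_of_pointUnique (hBC : Leaf.PointBC k B₀ B₁ B₀₁)
    (hU : Leaf.PointUnique k B₀ B₁ B₀₁) : Leaf.Stage4 k B₀ B₁ B₀₁ :=
  fun _ _ _ hC i hnum _ _ _ G hrig hdeg h3 => stage4_locus_of hBC hU hC i hnum G hrig hdeg h3

/-- **ST4** from PT-BC alone (PT-UNIQ is helper71's theorem on main). -/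
theorem stage4_of_pointBC [IsAlgClosed k] (hBC : Leaf.PointBC k B₀ B₁ B₀₁) :
    Leaf.Stage4 k B₀ B₁ B₀₁ :=
  stage4_of_pointBC_of_pointUnique hBC (H71.pointUnique k B₀ B₁ B₀₁)

end Fermat.Agent.S25.H387
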